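/-
Programme DS (S48), brick HECKE1, part (a) (helper2): coset combinatorics for `T_p` on `Γ₁(M)`.

For a prime `p ∤ M` the right cosets in the double coset of `diag(1, p)` are indexed by
`x ∈ ℙ¹(𝔽_p)`: `β_j = [1 j; 0 p]` (`j ∈ 𝔽_p`) and `β_∞ = [p 0; 0 1]` (`heckeRep p x`).
For `g ∈ Γ₀(M)` we have `β_x g = g' β_{x'}` with `x' = redMatrix p g • x`, `g' ∈ Γ₀(M)`, and the
lower right entries satisfy  `ω(x) * lr g' = lr g * ω(x')`  in `ZMod M`, where `ω(j) = 1`,
`ω(∞) = p` (`heckeRep_mul`).  This is the Prelude computation for `Γ₀(N)`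
(`heckeT_slash_eq_self_of_mem_Gamma0`) with the diagonal entries tracked.
-/
import Mathlib
import Fermat.Prelude.Def_ModularForm_HeckeOperator

set_option autoImplicit false

open Matrix.SpecialLinearGroup UpperHalfPlane CongruenceSubgroup ModularForm
open scoped MatrixGroups ModularForm OnePoint

namespace Fermat.Agent.DS.Hecke1.Cosets

/-! ### The lower right entry modulo `M` -/

/-- The lower right entry of `γ` modulo `M`. -/
def lr (M : ℕ) (γ : SL(2, ℤ)) : ZMod M := ((γ 1 1 : ℤ) : ZMod M)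

theorem det_eq (g : SL(2, ℤ)) : g 0 0 * g 1 1 - g 0 1 * g 1 0 = 1 := by
  have h := g.det_coe
  rwa [Matrix.det_fin_two] at h

theorem mul_apply_one_zero (a b : SL(2, ℤ)) :
    (a * b) 1 0 = a 1 0 * b 0 0 + a 1 1 * b 1 0 := by
  simp [Matrix.SpecialLinearGroup.coe_mul, Matrix.mul_apply, Fin.sum_univ_two]

theorem mul_apply_one_one (a b : SL(2, ℤ)) :
    (a * b) 1 1 = a 1 0 * b 0 1 + a 1 1 * b 1 1 := by
  simp [Matrix.SpecialLinearGroup.coe_mul, Matrix.mul_apply, Fin.sum_univ_two]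

variable {M : ℕ}

theorem lr_one : lr M 1 = 1 := by simp [lr]

theorem lr_mul {a b : SL(2, ℤ)} (ha : a ∈ Gamma0 M) : lr M (a * b) = lr M a * lr M b := by
  rw [Gamma0_mem] at ha
  simp only [lr, mul_apply_one_one]
  push_cast
  rw [ha, zero_mul, zero_add]

theorem mem_Gamma1_iff {γ : SL(2, ℤ)} (h : γ ∈ Gamma0 M) : γ ∈ Gamma1 M ↔ lr M γ = 1 := by
  rw [Gamma0_mem] at h
  rw [Gamma1_mem]
  constructor
  · exact fun h' => h'.2.1
  · intro h1
    refine ⟨?_, h1, h⟩
    have := congrArg (Int.cast : ℤ → ZMod M) (det_eq γ)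
    push_cast at this
    simp only [lr] at h1
    rw [h, mul_zero, sub_zero, h1, mul_one] at this
    exact this

theorem lr_mul_inv_self {γ : SL(2, ℤ)} (h : γ ∈ Gamma0 M) : lr M γ * lr M γ⁻¹ = 1 := by
  rw [← lr_mul h, mul_inv_cancel, lr_one]

/-- Two elements of `Γ₀(M)` with the same lower right entry mod `M` differ by `Γ₁(M)`. -/
theorem mul_inv_mem_Gamma1 {γ γ' : SL(2, ℤ)} (h : γ ∈ Gamma0 M) (h' : γ' ∈ Gamma0 M)
    (hlr : lr M γ = lr M γ') : γ' * γ⁻¹ ∈ Gamma1 M := by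
  rw [mem_Gamma1_iff (mul_mem h' (inv_mem h)), lr_mul h', ← hlr, lr_mul_inv_self h]

/-- Every unit of `ZMod M` is the lower right entry of an element of `Γ₀(M)`. -/
theorem exists_mem_Gamma0_lr (d : (ZMod M)ˣ) : ∃ γ ∈ Gamma0 M, lr M γ = (d : ZMod M) := by
  rcases Nat.eq_zero_or_pos M with rfl | hM
  · -- `ZMod 0 = ℤ`: units are `±1`
    rcases Int.units_eq_one_or d with rfl | rfl
    · exact ⟨1, one_mem _, by simp [lr]; rfl⟩
    · refine ⟨-1, ?_, ?_⟩
      · rw [Gamma0_mem]; simp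
      · simp [lr]; rfl
  · have : NeZero M := ⟨hM.ne'⟩
    set dv : ℕ := (d : ZMod M).val with hdv
    have hcop : Nat.Coprime dv M := ZMod.val_coe_unit_coprime d
    have hco : IsCoprime (dv : ℤ) (M : ℤ) := Nat.isCoprime_iff_coprime.mpr hcop
    obtain ⟨a, b, hab⟩ := hco
    -- `a * dv + b * M = 1`
    have hdet : (!![a, -b; (M : ℤ), (dv : ℤ)] : Matrix (Fin 2) (Fin 2) ℤ).det = 1 := by
      rw [Matrix.det_fin_two_of]; linear_combination hab
    refine ⟨(⟨!![a, -b; (M : ℤ), (dv : ℤ)], hdet⟩ : SL(2, ℤ)), ?_, ?_⟩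
    · rw [Gamma0_mem]; simp
    · simp [lr, hdv]

/-! ### Commutation relations with explicit entries -/

section commutation

@[local simp] theorem mapGL_apply (g : SL(2, ℤ)) (i j : Fin 2) :
    (mapGL ℝ g : GL (Fin 2) ℝ) i j = ((g i j : ℤ) : ℝ) := by
  simp

variable {p : ℕ} (hp : p ≠ 0)
include hp

theorem heckeMatrix_mul_of_eq (g : SL(2, ℤ)) (j j' : ℕ) (e : ℤ)
    (he : g 0 1 + j * g 1 1 = j' * (g 0 0 + j * g 1 0) + p * e) :
    ∃ g' : SL(2, ℤ), g' 1 0 = p * g 1 0 ∧ g' 1 1 = g 1 1 - g 1 0 * j' ∧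
      heckeMatrix p j * mapGL ℝ g = mapGL ℝ g' * heckeMatrix p j' := by
  have hdet := det_eq g
  refine ⟨⟨!![g 0 0 + j * g 1 0, e; p * g 1 0, g 1 1 - g 1 0 * j'], ?_⟩, rfl, rfl, ?_⟩
  · rw [Matrix.det_fin_two_of]
    linear_combination hdet + (g 1 0) * he
  · ext i j
    fin_cases i <;> fin_cases j <;>
      simp [hp, Matrix.mul_apply, Fin.sum_univ_two]
    all_goals first
      | (have := congrArg (Int.cast : ℤ → ℝ) he; push_cast at this ⊢; linear_combination this)
      | (have := congrArg (Int.cast : ℤ → ℝ) he; push_cast at this ⊢; linear_combination -this)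
      | ring1

theorem heckeMatrix_mul_of_eq' (g : SL(2, ℤ)) (j : ℕ) (e : ℤ)
    (he : g 0 0 + j * g 1 0 = p * e) :
    ∃ g' : SL(2, ℤ), g' 1 0 = g 1 0 ∧ g' 1 1 = p * g 1 1 ∧
      heckeMatrix p j * mapGL ℝ g = mapGL ℝ g' * heckeDiagMatrix p := by
  have hdet := det_eq g
  refine ⟨⟨!![e, g 0 1 + j * g 1 1; g 1 0, p * g 1 1], ?_⟩, rfl, rfl, ?_⟩
  · rw [Matrix.det_fin_two_of]
    linear_combination hdet - (g 1 1) * he
  · ext i j
    fin_cases i <;> fin_cases j <;>
      simp [hp, Matrix.mul_apply, Fin.sum_univ_two]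
    all_goals first
      | (have := congrArg (Int.cast : ℤ → ℝ) he; push_cast at this ⊢; linear_combination this)
      | (have := congrArg (Int.cast : ℤ → ℝ) he; push_cast at this ⊢; linear_combination -this)
      | ring1

theorem heckeDiagMatrix_mul_of_eq (g : SL(2, ℤ)) (j' : ℕ) (e : ℤ)
    (he : g 1 1 = g 1 0 * j' + p * e) :
    ∃ g' : SL(2, ℤ), g' 1 0 = g 1 0 ∧ g' 1 1 = e ∧
      heckeDiagMatrix p * mapGL ℝ g = mapGL ℝ g' * heckeMatrix p j' := by
  have hdet := det_eq g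
  refine ⟨⟨!![p * g 0 0, g 0 1 - g 0 0 * j'; g 1 0, e], ?_⟩, rfl, rfl, ?_⟩
  · rw [Matrix.det_fin_two_of]
    linear_combination hdet - (g 0 0) * he
  · ext i j
    fin_cases i <;> fin_cases j <;>
      simp [hp, Matrix.mul_apply, Fin.sum_univ_two]
    all_goals first
      | (have := congrArg (Int.cast : ℤ → ℝ) he; push_cast at this ⊢; linear_combination this)
      | (have := congrArg (Int.cast : ℤ → ℝ) he; push_cast at this ⊢; linear_combination -this)
      | ring1

theorem heckeDiagMatrix_mul_of_eq' (g : SL(2, ℤ)) (e : ℤ) (he : g 1 0 = p * e) :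
    ∃ g' : SL(2, ℤ), g' 1 0 = e ∧ g' 1 1 = g 1 1 ∧
      heckeDiagMatrix p * mapGL ℝ g = mapGL ℝ g' * heckeDiagMatrix p := by
  have hdet := det_eq g
  refine ⟨⟨!![g 0 0, p * g 0 1; e, g 1 1], ?_⟩, rfl, rfl, ?_⟩
  · rw [Matrix.det_fin_two_of]
    linear_combination hdet + (g 0 1) * he
  · ext i j
    fin_cases i <;> fin_cases j <;>
      simp [hp, Matrix.mul_apply, Fin.sum_univ_two]
    all_goals first
      | (have := congrArg (Int.cast : ℤ → ℝ) he; push_cast at this ⊢; linear_combination this)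
      | (have := congrArg (Int.cast : ℤ → ℝ) he; push_cast at this ⊢; linear_combination -this)
      | ring1

end commutation

/-! ### Indexing by the projective line -/

section reindex

variable {p : ℕ}

theorem sum_range_eq_sum_zmod [NeZero p] {A : Type*} [AddCommMonoid A] (F : ℕ → A) :
    ∑ j ∈ Finset.range p, F j = ∑ x : ZMod p, F x.val := by
  refine Finset.sum_nbij' (fun j : ℕ ↦ (j : ZMod p)) (fun x : ZMod p ↦ x.val)
    (fun _ _ ↦ Finset.mem_univ _)
    (fun x _ ↦ Finset.mem_range.mpr x.val_lt) (fun j hj ↦ ?_) (fun x _ ↦ ?_) (fun j hj ↦ ?_)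
  · exact ZMod.val_cast_of_lt (Finset.mem_range.mp hj)
  · exact ZMod.natCast_zmod_val x
  · rw [ZMod.val_cast_of_lt (Finset.mem_range.mp hj)]

/-- The coset representatives, indexed by the projective line over `𝔽_p`. -/
noncomputable def heckeRep (p : ℕ) (x : OnePoint (ZMod p)) : GL (Fin 2) ℝ :=
  x.elim (heckeDiagMatrix p) (fun j ↦ heckeMatrix p j.val)

@[simp] theorem heckeRep_infty : heckeRep p ∞ = heckeDiagMatrix p := rfl

@[simp] theorem heckeRep_coe (j : ZMod p) : heckeRep p j = heckeMatrix p j.val := rfl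

/-- The weight of a coset: `p` at `∞`, `1` elsewhere. -/
def wt (M p : ℕ) (x : OnePoint (ZMod p)) : ZMod M := x.elim (p : ZMod M) (fun _ ↦ 1)

@[simp] theorem wt_infty (M : ℕ) : wt M p ∞ = (p : ZMod M) := rfl

@[simp] theorem wt_coe (M : ℕ) (j : ZMod p) : wt M p j = 1 := rfl

variable [Fact p.Prime]

variable (p) in
/-- The matrix by which `g` permutes the cosets. -/
def redMatrix (g : SL(2, ℤ)) : GL (Fin 2) (ZMod p) :=
  Matrix.GeneralLinearGroup.mkOfDetNeZero
    !![((g 1 1 : ℤ) : ZMod p), ((g 0 1 : ℤ) : ZMod p);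
      ((g 1 0 : ℤ) : ZMod p), ((g 0 0 : ℤ) : ZMod p)]
    (by
      have := congrArg (Int.cast : ℤ → ZMod p) (det_eq g)
      push_cast at this
      rw [Matrix.det_fin_two_of,
        show ((g 1 1 : ℤ) : ZMod p) * ((g 0 0 : ℤ) : ZMod p) -
            ((g 0 1 : ℤ) : ZMod p) * ((g 1 0 : ℤ) : ZMod p) = 1 by linear_combination this]
      exact one_ne_zero)

@[simp] theorem redMatrix_apply_zero_zero (g : SL(2, ℤ)) :
    redMatrix p g 0 0 = ((g 1 1 : ℤ) : ZMod p) := by
  simp [redMatrix]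

@[simp] theorem redMatrix_apply_zero_one (g : SL(2, ℤ)) :
    redMatrix p g 0 1 = ((g 0 1 : ℤ) : ZMod p) := by
  simp [redMatrix]

@[simp] theorem redMatrix_apply_one_zero (g : SL(2, ℤ)) :
    redMatrix p g 1 0 = ((g 1 0 : ℤ) : ZMod p) := by
  simp [redMatrix]

@[simp] theorem redMatrix_apply_one_one (g : SL(2, ℤ)) :
    redMatrix p g 1 1 = ((g 0 0 : ℤ) : ZMod p) := by
  simp [redMatrix]

theorem heckeRep_mul (hpM : ¬ p ∣ M) (g : SL(2, ℤ)) (hg : g ∈ Gamma0 M)
    (x : OnePoint (ZMod p)) :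
    ∃ g' : SL(2, ℤ), g' ∈ Gamma0 M ∧
      wt M p x * lr M g' = lr M g * wt M p (redMatrix p g • x) ∧
      heckeRep p x * mapGL ℝ g = mapGL ℝ g' * heckeRep p (redMatrix p g • x) := by
  have hp : p ≠ 0 := (Fact.out : p.Prime).ne_zero
  have : NeZero p := ⟨hp⟩
  have hgM : (M : ℤ) ∣ g 1 0 := (ZMod.intCast_zmod_eq_zero_iff_dvd _ _).mp (Gamma0_mem.mp hg)
  have mem_of : ∀ g' : SL(2, ℤ), (M : ℤ) ∣ g' 1 0 → g' ∈ Gamma0 M := fun g' h =>
    Gamma0_mem.mpr ((ZMod.intCast_zmod_eq_zero_iff_dvd _ _).mpr h)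
  have hg0 : ((g 1 0 : ℤ) : ZMod M) = 0 := Gamma0_mem.mp hg
  induction x using OnePoint.rec with
  | infty =>
    rw [OnePoint.smul_infty_eq_ite]
    by_cases hc : ((g 1 0 : ℤ) : ZMod p) = 0
    · rw [if_pos (by simpa using hc), heckeRep_infty]
      obtain ⟨e, he⟩ := (ZMod.intCast_zmod_eq_zero_iff_dvd _ _).mp hc
      obtain ⟨g', hg', hg'', hmul⟩ := heckeDiagMatrix_mul_of_eq' hp g e he
      refine ⟨g', mem_of g' ?_, ?_, hmul⟩
      · rw [hg']
        have hcop : IsCoprime (M : ℤ) (p : ℤ) :=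
          Nat.isCoprime_iff_coprime.mpr ((Nat.Prime.coprime_iff_not_dvd Fact.out).mpr hpM).symm
        exact hcop.dvd_of_dvd_mul_left (he ▸ hgM)
      · simp only [wt_infty, lr, hg'']
        ring
    · rw [if_neg (by simpa using hc), heckeRep_infty, heckeRep_coe]
      set y : ZMod p := redMatrix p g 0 0 / redMatrix p g 1 0 with hy
      obtain ⟨e, he⟩ : (p : ℤ) ∣ g 1 1 - g 1 0 * y.val := by
        rw [← ZMod.intCast_zmod_eq_zero_iff_dvd]
        push_cast
        rw [ZMod.natCast_zmod_val, hy, redMatrix_apply_zero_zero, redMatrix_apply_one_zero,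
          mul_div_cancel₀ _ hc, sub_self]
      obtain ⟨g', hg', hg'', hmul⟩ :=
        heckeDiagMatrix_mul_of_eq hp g y.val e (by linear_combination he)
      refine ⟨g', mem_of g' (hg' ▸ hgM), ?_, hmul⟩
      simp only [wt_infty, wt_coe, mul_one, lr, hg'']
      have := congrArg (Int.cast : ℤ → ZMod M) he
      push_cast at this
      rw [hg0, zero_mul, sub_zero] at this
      exact this.symm
  | coe j =>
    rw [OnePoint.smul_some_eq_ite]
    by_cases h : redMatrix p g 1 0 * j + redMatrix p g 1 1 = 0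
    · rw [if_pos h, heckeRep_infty, heckeRep_coe]
      rw [redMatrix_apply_one_zero, redMatrix_apply_one_one] at h
      obtain ⟨e, he⟩ : (p : ℤ) ∣ g 0 0 + j.val * g 1 0 := by
        rw [← ZMod.intCast_zmod_eq_zero_iff_dvd]
        push_cast
        rw [ZMod.natCast_zmod_val]
        linear_combination h
      obtain ⟨g', hg', hg'', hmul⟩ := heckeMatrix_mul_of_eq' hp g j.val e he
      refine ⟨g', mem_of g' (hg' ▸ hgM), ?_, hmul⟩
      simp only [wt_infty, wt_coe, one_mul, lr, hg'']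
      push_cast
      ring
    · rw [if_neg h, heckeRep_coe, heckeRep_coe]
      set y : ZMod p := (redMatrix p g 0 0 * j + redMatrix p g 0 1) /
        (redMatrix p g 1 0 * j + redMatrix p g 1 1) with hy
      obtain ⟨e, he⟩ : (p : ℤ) ∣ g 0 1 + j.val * g 1 1 - y.val * (g 0 0 + j.val * g 1 0) := by
        rw [← ZMod.intCast_zmod_eq_zero_iff_dvd]
        push_cast
        rw [ZMod.natCast_zmod_val, ZMod.natCast_zmod_val,
          show ((g 0 0 : ℤ) : ZMod p) + j * ((g 1 0 : ℤ) : ZMod p)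
            = redMatrix p g 1 0 * j + redMatrix p g 1 1 by
              rw [redMatrix_apply_one_zero, redMatrix_apply_one_one]; ring,
          hy, div_mul_cancel₀ _ h, redMatrix_apply_zero_zero, redMatrix_apply_zero_one]
        ring
      obtain ⟨g', hg', hg'', hmul⟩ :=
        heckeMatrix_mul_of_eq hp g j.val y.val e (by linear_combination he)
      refine ⟨g', mem_of g' (hg' ▸ dvd_mul_of_dvd_right hgM _), ?_, hmul⟩
      simp only [wt_coe, one_mul, mul_one, lr, hg'']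
      push_cast
      rw [hg0, zero_mul, sub_zero]

end reindex

end Fermat.Agent.DS.Hecke1.Cosets
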