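/-
Programme DS (S48), brick HECKE1, part (b) (helper2): diamond operators on `S_k(Γ₁(M))`.

* `Inv1 M k g` : `g` is invariant under the weight `k` slash action of `Γ₁(M)`;
  for such `g` and `γ ∈ Γ₀(M)`, `g ∣[k] γ` depends only on `lr M γ` (`Inv1.slash_eq_of_lr_eq`) and is
  again `Γ₁(M)`-invariant (`Inv1.slash`).
* `slashCusp γ hγ : CuspForm Γ₁(M) k →ₗ[ℂ] CuspForm Γ₁(M) k` for `γ ∈ Γ₀(M)`;
* `diamond d` for `d : (ZMod M)ˣ`, with `diamond_eq_slashCusp`, `diamond_one`, `diamond_mul`,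
  `diamond_comm`.
-/
import Mathlib
import Fermat.Agent.DS.Hecke1.Cosets

set_option autoImplicit false
set_option linter.unusedSectionVars false

open Matrix.SpecialLinearGroup UpperHalfPlane CongruenceSubgroup ModularForm
open scoped MatrixGroups ModularForm OnePoint Manifold

namespace Fermat.Agent.DS.Hecke1.Diamond

open Fermat.Agent.DS.Hecke1.Cosets

variable {M : ℕ} {k : ℤ}

/-- Invariance under `Γ₁(M)`. -/
def Inv1 (M : ℕ) (k : ℤ) (g : ℍ → ℂ) : Prop := ∀ δ ∈ Gamma1 M, g ∣[k] δ = g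

theorem Inv1.slash_eq_of_lr_eq {g : ℍ → ℂ} (hg : Inv1 M k g) {γ γ' : SL(2, ℤ)}
    (h : γ ∈ Gamma0 M) (h' : γ' ∈ Gamma0 M) (hlr : lr M γ = lr M γ') :
    g ∣[k] γ = g ∣[k] γ' := by
  have h1 : γ' = (γ' * γ⁻¹) * γ := by group
  rw [h1, SlashAction.slash_mul, hg _ (mul_inv_mem_Gamma1 h h' hlr)]

theorem Inv1.slash {g : ℍ → ℂ} (hg : Inv1 M k g) {γ : SL(2, ℤ)} (h : γ ∈ Gamma0 M) :
    Inv1 M k (g ∣[k] γ) := by
  intro δ hδ
  have hδ0 : δ ∈ Gamma0 M := Gamma1_in_Gamma0 M hδ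
  rw [← SlashAction.slash_mul]
  refine (hg.slash_eq_of_lr_eq h (mul_mem h hδ0) ?_).symm
  rw [lr_mul h, (mem_Gamma1_iff hδ0).mp hδ, mul_one]

section CuspForms

variable [NeZero M]

local notation "Γ1M" => ((Gamma1 M : Subgroup SL(2, ℤ)) : Subgroup (GL (Fin 2) ℝ))

theorem inv1_coe (f : CuspForm Γ1M k) : Inv1 M k (f : ℍ → ℂ) := fun δ hδ => by
  rw [SL_slash]
  exact f.slash_action_eq' _ (Subgroup.mem_map_of_mem _ hδ)

/-- If `g` is invariant under `Γ₁(M)`, it is invariant under the image of `Γ₁(M)` in `GL₂(ℝ)`. -/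
theorem Inv1.slash_action_eq {g : ℍ → ℂ} (hg : Inv1 M k g) :
    ∀ A ∈ Γ1M, g ∣[k] A = g := by
  rintro A ⟨δ, hδ, rfl⟩
  have := hg δ hδ
  rwa [SL_slash] at this

/-- Slash by an element of `Γ₀(M)`, as a linear endomorphism of `S_k(Γ₁(M))`. -/
noncomputable def slashCusp (γ : SL(2, ℤ)) (hγ : γ ∈ Gamma0 M) :
    CuspForm Γ1M k →ₗ[ℂ] CuspForm Γ1M k where
  toFun f :=
    { toFun := (f : ℍ → ℂ) ∣[k] γ
      slash_action_eq' := ((inv1_coe f).slash hγ).slash_action_eq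
      holo' := by
        show MDiff ((f : ℍ → ℂ) ∣[k] γ)
        rw [SL_slash]; exact f.holo'.slash k _
      zero_at_cusps' := by
        intro c hc
        rw [Subgroup.IsArithmetic.isCusp_iff_isCusp_SL2Z] at hc
        rw [OnePoint.isZeroAt_iff_forall_SL2Z hc]
        intro γ' _
        show IsZeroAtImInfty (((f : ℍ → ℂ) ∣[k] γ) ∣[k] γ')
        rw [← SlashAction.slash_mul]
        exact CuspFormClass.zero_at_infty_slash f (γ * γ') }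
  map_add' f g := by
    ext τ
    show (((f + g : CuspForm Γ1M k) : ℍ → ℂ) ∣[k] γ) τ = _
    rw [FunLike.coe_add, SlashAction.add_slash]
    rfl
  map_smul' c f := by
    ext τ
    show (((c • f : CuspForm Γ1M k) : ℍ → ℂ) ∣[k] γ) τ = _
    rw [FunLike.coe_smul, SL_smul_slash]
    rfl

@[simp] theorem coe_slashCusp (γ : SL(2, ℤ)) (hγ : γ ∈ Gamma0 M) (f : CuspForm Γ1M k) :
    (slashCusp γ hγ f : ℍ → ℂ) = (f : ℍ → ℂ) ∣[k] γ := rfl

theorem slashCusp_eq_of_lr_eq {γ γ' : SL(2, ℤ)} (hγ : γ ∈ Gamma0 M) (hγ' : γ' ∈ Gamma0 M)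
    (hlr : lr M γ = lr M γ') : (slashCusp γ hγ : CuspForm Γ1M k →ₗ[ℂ] _) = slashCusp γ' hγ' := by
  ext f τ
  show ((f : ℍ → ℂ) ∣[k] γ) τ = ((f : ℍ → ℂ) ∣[k] γ') τ
  rw [(inv1_coe f).slash_eq_of_lr_eq hγ hγ' hlr]

theorem slashCusp_comp {γ γ' : SL(2, ℤ)} (hγ : γ ∈ Gamma0 M) (hγ' : γ' ∈ Gamma0 M) :
    (slashCusp γ' hγ' : CuspForm Γ1M k →ₗ[ℂ] _) ∘ₗ slashCusp γ hγ =
      slashCusp (γ * γ') (mul_mem hγ hγ') := by
  ext f τ
  show (((f : ℍ → ℂ) ∣[k] γ) ∣[k] γ') τ = ((f : ℍ → ℂ) ∣[k] (γ * γ')) τ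
  rw [SlashAction.slash_mul]

theorem slashCusp_of_mem_Gamma1 {γ : SL(2, ℤ)} (hγ : γ ∈ Gamma1 M) :
    (slashCusp γ (Gamma1_in_Gamma0 M hγ) : CuspForm Γ1M k →ₗ[ℂ] _) = LinearMap.id := by
  ext f τ
  show ((f : ℍ → ℂ) ∣[k] γ) τ = f τ
  rw [inv1_coe f γ hγ]

/-- A lift of a unit of `ZMod M` to `Γ₀(M)`. -/
noncomputable def lift (d : (ZMod M)ˣ) : SL(2, ℤ) := (exists_mem_Gamma0_lr d).choose

theorem lift_mem (d : (ZMod M)ˣ) : lift d ∈ Gamma0 M := (exists_mem_Gamma0_lr d).choose_spec.1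

theorem lr_lift (d : (ZMod M)ˣ) : lr M (lift d) = (d : ZMod M) :=
  (exists_mem_Gamma0_lr d).choose_spec.2

/-- **The diamond operator** `⟨d⟩` on `S_k(Γ₁(M))`. -/
noncomputable def diamond (d : (ZMod M)ˣ) : CuspForm Γ1M k →ₗ[ℂ] CuspForm Γ1M k :=
  slashCusp (lift d) (lift_mem d)

theorem diamond_eq_slashCusp (d : (ZMod M)ˣ) {γ : SL(2, ℤ)} (hγ : γ ∈ Gamma0 M)
    (hlr : lr M γ = (d : ZMod M)) :
    (diamond d : CuspForm Γ1M k →ₗ[ℂ] _) = slashCusp γ hγ :=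
  slashCusp_eq_of_lr_eq _ _ ((lr_lift d).trans hlr.symm)

theorem coe_diamond (d : (ZMod M)ˣ) {γ : SL(2, ℤ)} (hγ : γ ∈ Gamma0 M)
    (hlr : lr M γ = (d : ZMod M)) (f : CuspForm Γ1M k) :
    (diamond d f : ℍ → ℂ) = (f : ℍ → ℂ) ∣[k] γ := by
  rw [diamond_eq_slashCusp d hγ hlr]; rfl

theorem diamond_one : (diamond 1 : CuspForm Γ1M k →ₗ[ℂ] _) = LinearMap.id := by
  rw [diamond_eq_slashCusp 1 (one_mem _) (by simp [lr_one])]
  exact slashCusp_of_mem_Gamma1 (one_mem _)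

theorem diamond_mul (d e : (ZMod M)ˣ) :
    (diamond (d * e) : CuspForm Γ1M k →ₗ[ℂ] _) = diamond e ∘ₗ diamond d := by
  unfold diamond
  rw [slashCusp_comp (lift_mem d) (lift_mem e)]
  refine slashCusp_eq_of_lr_eq _ _ ?_
  rw [lr_lift, lr_mul (lift_mem d), lr_lift, lr_lift, Units.val_mul]

theorem diamond_comm (d e : (ZMod M)ˣ) :
    (diamond d : CuspForm Γ1M k →ₗ[ℂ] _) ∘ₗ diamond e = diamond e ∘ₗ diamond d := by
  rw [← diamond_mul, ← diamond_mul, mul_comm]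

end CuspForms

end Fermat.Agent.DS.Hecke1.Diamond
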