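/-
Programme DS (S48), brick HECKE1, part (c) (helper2): the Hecke operator `T_p` on `S_k(Γ₁(M))`
for a prime `p ∤ M`.

* `heckeT1Fun k p σ g = heckeU k p g + (g ∣[k] σ) ∣[k] heckeDiagMatrix p` (function level; `σ ∈ Γ₀(M)`
  with lower right entry `≡ p mod M`);
* KEY LEMMA `heckeT1Fun_slash` : for `g` invariant under `Γ₁(M)` and every `γ ∈ Γ₀(M)`,
  `(heckeT1Fun k p σ g) ∣[k] γ = heckeT1Fun k p σ (g ∣[k] γ)`;
* `heckeT1 hp hpM : CuspForm Γ₁(M) k →ₗ[ℂ] CuspForm Γ₁(M) k`, with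
  `coe_heckeT1 : ⇑(heckeT1 hp hpM g) = heckeU k p g + ⇑(diamond (unitP hp hpM) g) ∣[k] heckeDiagMatrix p`;
* `heckeT1_comp_slashCusp`, `heckeT1_comp_diamond` : `T_p` commutes with the diamond operators.
-/
import Mathlib
import Fermat.Agent.DS.Hecke1.Diamond
import Fermat.Prelude.Thm_ModularForm_mdifferentiable_heckeU
import Fermat.Prelude.Thm_CuspFormClass_isZeroAt_heckeU
import Fermat.Prelude.Thm_CuspFormClass_isZeroAt_heckeT

set_option autoImplicit false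
set_option linter.unusedSectionVars false

open Matrix.SpecialLinearGroup UpperHalfPlane CongruenceSubgroup ModularForm
open scoped MatrixGroups ModularForm OnePoint Manifold

namespace Fermat.Agent.DS.Hecke1.HeckeT1

open Fermat.Agent.DS.Hecke1.Cosets Fermat.Agent.DS.Hecke1.Diamond

variable {M : ℕ} {k : ℤ} {p : ℕ}

/-! ### Function level -/

/-- The function-level operator `T_p`, relative to `σ ∈ Γ₀(M)` with lower right entry `≡ p`. -/
noncomputable def heckeT1Fun (k : ℤ) (p : ℕ) (σ : SL(2, ℤ)) (g : ℍ → ℂ) : ℍ → ℂ :=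
  heckeU k p g + (g ∣[k] σ) ∣[k] heckeDiagMatrix p

theorem heckeT1Fun_add (σ : SL(2, ℤ)) (f g : ℍ → ℂ) :
    heckeT1Fun k p σ (f + g) = heckeT1Fun k p σ f + heckeT1Fun k p σ g := by
  simp only [heckeT1Fun, heckeU_add, SlashAction.add_slash]
  abel

theorem heckeT1Fun_smul (σ : SL(2, ℤ)) (c : ℂ) (g : ℍ → ℂ) :
    heckeT1Fun k p σ (c • g) = c • heckeT1Fun k p σ g := by
  simp only [heckeT1Fun, heckeU_smul, SL_smul_slash, ModularForm.smul_slash, σ_heckeDiagMatrix,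
    ContinuousAlgEquiv.refl_apply, smul_add]

/-- The twisting element: `σ` at `∞`, `1` elsewhere. -/
def twist (σ : SL(2, ℤ)) (x : OnePoint (ZMod p)) : SL(2, ℤ) := x.elim σ (fun _ ↦ 1)

@[simp] theorem twist_infty (σ : SL(2, ℤ)) : twist (p := p) σ ∞ = σ := rfl

@[simp] theorem twist_coe (σ : SL(2, ℤ)) (j : ZMod p) : twist σ (j : OnePoint (ZMod p)) = 1 := rfl

theorem twist_mem {σ : SL(2, ℤ)} (hσ : σ ∈ Gamma0 M) (x : OnePoint (ZMod p)) :
    twist σ x ∈ Gamma0 M := by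
  induction x using OnePoint.rec with
  | infty => exact hσ
  | coe j => exact one_mem _

theorem lr_twist {σ : SL(2, ℤ)} (hσp : lr M σ = (p : ZMod M)) (x : OnePoint (ZMod p)) :
    lr M (twist σ x) = wt M p x := by
  induction x using OnePoint.rec with
  | infty => exact hσp
  | coe j => exact lr_one

theorem slash_mapGL (f : ℍ → ℂ) (γ : SL(2, ℤ)) :
    f ∣[k] (mapGL ℝ γ : GL (Fin 2) ℝ) = f ∣[k] γ := (SL_slash f γ).symm

theorem heckeT1Fun_eq_sum [NeZero p] (σ : SL(2, ℤ)) (g : ℍ → ℂ) :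
    heckeT1Fun k p σ g = ∑ x : OnePoint (ZMod p), (g ∣[k] twist σ x) ∣[k] heckeRep p x := by
  rw [heckeT1Fun, heckeU_def, sum_range_eq_sum_zmod, add_comm]
  refine (Eq.trans ?_ (Fintype.sum_option
    (fun x : OnePoint (ZMod p) ↦ (g ∣[k] twist σ x) ∣[k] heckeRep p x)).symm)
  congr 1
  refine Finset.sum_congr rfl fun j _ ↦ ?_
  show g ∣[k] heckeMatrix p j.val = (g ∣[k] (1 : SL(2, ℤ))) ∣[k] heckeMatrix p j.val
  rw [SlashAction.slash_one]

/-- **Key lemma**: the function-level `T_p` commutes with the slash action of `Γ₀(M)` on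
`Γ₁(M)`-invariant functions. -/
theorem heckeT1Fun_slash [Fact p.Prime] (hpM : ¬ p ∣ M) {g : ℍ → ℂ} (hg : Inv1 M k g)
    {σ γ : SL(2, ℤ)} (hσ : σ ∈ Gamma0 M) (hσp : lr M σ = (p : ZMod M)) (hγ : γ ∈ Gamma0 M) :
    (heckeT1Fun k p σ g) ∣[k] γ = heckeT1Fun k p σ (g ∣[k] γ) := by
  have : NeZero p := ⟨(Fact.out : p.Prime).ne_zero⟩
  rw [heckeT1Fun_eq_sum, heckeT1Fun_eq_sum, SlashAction.sum_slash]
  refine Eq.trans ?_ (Equiv.sum_comp (MulAction.toPerm (redMatrix p γ))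
    (fun y ↦ ((g ∣[k] γ) ∣[k] twist σ y) ∣[k] heckeRep p y))
  refine Finset.sum_congr rfl fun x _ ↦ ?_
  obtain ⟨γ', hγ', hwt, hmul⟩ := heckeRep_mul hpM γ hγ x
  show ((g ∣[k] twist σ x) ∣[k] heckeRep p x) ∣[k] γ =
    ((g ∣[k] γ) ∣[k] twist σ (redMatrix p γ • x)) ∣[k] heckeRep p (redMatrix p γ • x)
  rw [← slash_mapGL _ γ, ← SlashAction.slash_mul, hmul, SlashAction.slash_mul, slash_mapGL,
    ← SlashAction.slash_mul, ← SlashAction.slash_mul]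
  congr 1
  refine hg.slash_eq_of_lr_eq (mul_mem (twist_mem hσ x) hγ') (mul_mem hγ (twist_mem hσ _)) ?_
  rw [lr_mul (twist_mem hσ x), lr_mul hγ, lr_twist hσp, lr_twist hσp, hwt]

theorem Inv1.heckeT1Fun [Fact p.Prime] (hpM : ¬ p ∣ M) {g : ℍ → ℂ} (hg : Inv1 M k g)
    {σ : SL(2, ℤ)} (hσ : σ ∈ Gamma0 M) (hσp : lr M σ = (p : ZMod M)) :
    Inv1 M k (heckeT1Fun k p σ g) := fun δ hδ => by
  rw [heckeT1Fun_slash hpM hg hσ hσp (Gamma1_in_Gamma0 M hδ), hg δ hδ]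

/-! ### The operator on cusp forms -/

section CuspForms

variable [NeZero M]

local notation "Γ1M" => ((Gamma1 M : Subgroup SL(2, ℤ)) : Subgroup (GL (Fin 2) ℝ))

/-- The class of `p` in `(ZMod M)ˣ`. -/
noncomputable def unitP (hp : p.Prime) (hpM : ¬ p ∣ M) : (ZMod M)ˣ :=
  ZMod.unitOfCoprime p ((Nat.Prime.coprime_iff_not_dvd hp).mpr hpM)

@[simp] theorem coe_unitP (hp : p.Prime) (hpM : ¬ p ∣ M) :
    ((unitP hp hpM : (ZMod M)ˣ) : ZMod M) = (p : ZMod M) :=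
  ZMod.coe_unitOfCoprime _ _

theorem isZeroAt_slash_heckeDiagMatrix (h : CuspForm Γ1M k) (p : ℕ) {c : OnePoint ℝ}
    (hc : IsCusp c Γ1M) : OnePoint.IsZeroAt c ((h : ℍ → ℂ) ∣[k] heckeDiagMatrix p) k := by
  have h1 := CuspFormClass.isZeroAt_heckeT h p hc
  have h2 := CuspFormClass.isZeroAt_heckeU (-h) p hc
  have h3 := h1.add h2
  have e : heckeT k p (h : ℍ → ℂ) + heckeU k p ((-h : CuspForm Γ1M k) : ℍ → ℂ) =
      (h : ℍ → ℂ) ∣[k] heckeDiagMatrix p := by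
    rw [FunLike.coe_neg, heckeU_neg, heckeT_eq_heckeU_add]
    abel
  rwa [e] at h3

/-- **The Hecke operator `T_p`** on `S_k(Γ₁(M))`, `p ∤ M` prime. -/
noncomputable def heckeT1 (hp : p.Prime) (hpM : ¬ p ∣ M) :
    CuspForm Γ1M k →ₗ[ℂ] CuspForm Γ1M k where
  toFun g :=
    { toFun := heckeT1Fun k p (lift (unitP hp hpM)) (g : ℍ → ℂ)
      slash_action_eq' :=
        have : Fact p.Prime := ⟨hp⟩
        (Inv1.heckeT1Fun hpM (inv1_coe g) (lift_mem _)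
          ((lr_lift _).trans (coe_unitP hp hpM))).slash_action_eq
      holo' := by
        show MDiff (heckeU k p (g : ℍ → ℂ) +
          ((g : ℍ → ℂ) ∣[k] lift (unitP hp hpM)) ∣[k] heckeDiagMatrix p)
        refine (ModularForm.mdifferentiable_heckeU g.holo' k p).add ?_
        rw [SL_slash]
        exact (g.holo'.slash k _).slash k _
      zero_at_cusps' := by
        intro c hc
        show OnePoint.IsZeroAt c (heckeU k p (g : ℍ → ℂ) +
          ((g : ℍ → ℂ) ∣[k] lift (unitP hp hpM)) ∣[k] heckeDiagMatrix p) k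
        exact (CuspFormClass.isZeroAt_heckeU g p hc).add
          (isZeroAt_slash_heckeDiagMatrix (diamond (unitP hp hpM) g) p hc) }
  map_add' f g := by
    ext τ
    show heckeT1Fun k p _ ((f + g : CuspForm Γ1M k) : ℍ → ℂ) τ = _
    rw [FunLike.coe_add, heckeT1Fun_add]
    rfl
  map_smul' c f := by
    ext τ
    show heckeT1Fun k p _ ((c • f : CuspForm Γ1M k) : ℍ → ℂ) τ = _
    rw [FunLike.coe_smul, heckeT1Fun_smul]
    rfl

theorem coe_heckeT1_eq_fun (hp : p.Prime) (hpM : ¬ p ∣ M) (g : CuspForm Γ1M k) :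
    (heckeT1 hp hpM g : ℍ → ℂ) = heckeT1Fun k p (lift (unitP hp hpM)) (g : ℍ → ℂ) := rfl

/-- `T_p g = U_p g + (⟨p⟩ g) ∣[k] diag(p, 1)`. -/
theorem coe_heckeT1 (hp : p.Prime) (hpM : ¬ p ∣ M) (g : CuspForm Γ1M k) :
    (heckeT1 hp hpM g : ℍ → ℂ) =
      heckeU k p (g : ℍ → ℂ) + (diamond (unitP hp hpM) g : ℍ → ℂ) ∣[k] heckeDiagMatrix p := rfl

/-- `T_p` may be computed with any `σ ∈ Γ₀(M)` with lower right entry `≡ p mod M`. -/
theorem coe_heckeT1_of_lr (hp : p.Prime) (hpM : ¬ p ∣ M) {σ : SL(2, ℤ)} (hσ : σ ∈ Gamma0 M)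
    (hσp : lr M σ = (p : ZMod M)) (g : CuspForm Γ1M k) :
    (heckeT1 hp hpM g : ℍ → ℂ) = heckeT1Fun k p σ (g : ℍ → ℂ) := by
  rw [coe_heckeT1_eq_fun, heckeT1Fun, heckeT1Fun,
    (inv1_coe g).slash_eq_of_lr_eq (lift_mem _) hσ
      ((lr_lift _).trans ((coe_unitP hp hpM).trans hσp.symm))]

/-- `T_p` commutes with slashing by elements of `Γ₀(M)`. -/
theorem heckeT1_comp_slashCusp (hp : p.Prime) (hpM : ¬ p ∣ M) {γ : SL(2, ℤ)}
    (hγ : γ ∈ Gamma0 M) :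
    (heckeT1 hp hpM : CuspForm Γ1M k →ₗ[ℂ] _) ∘ₗ slashCusp γ hγ =
      slashCusp γ hγ ∘ₗ heckeT1 hp hpM := by
  have : Fact p.Prime := ⟨hp⟩
  ext g τ
  show heckeT1Fun k p (lift (unitP hp hpM)) ((g : ℍ → ℂ) ∣[k] γ) τ =
    ((heckeT1Fun k p (lift (unitP hp hpM)) (g : ℍ → ℂ)) ∣[k] γ) τ
  rw [heckeT1Fun_slash hpM (inv1_coe g) (lift_mem _) ((lr_lift _).trans (coe_unitP hp hpM)) hγ]

/-- `T_p` commutes with the diamond operators. -/
theorem heckeT1_comp_diamond (hp : p.Prime) (hpM : ¬ p ∣ M) (d : (ZMod M)ˣ) :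
    (heckeT1 hp hpM : CuspForm Γ1M k →ₗ[ℂ] _) ∘ₗ diamond d = diamond d ∘ₗ heckeT1 hp hpM :=
  heckeT1_comp_slashCusp hp hpM (lift_mem d)

theorem heckeT1_diamond (hp : p.Prime) (hpM : ¬ p ∣ M) (d : (ZMod M)ˣ) (g : CuspForm Γ1M k) :
    heckeT1 hp hpM (diamond d g) = diamond d (heckeT1 hp hpM g) :=
  LinearMap.congr_fun (heckeT1_comp_diamond hp hpM d) g

end CuspForms

end Fermat.Agent.DS.Hecke1.HeckeT1
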