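/-
Programme DS (S48), brick HECKE1, part (d) (helper2): the `q`-expansion of `T_p g`,
`g ∈ S_k(Γ₁(M))`, `p ∤ M` prime:

  `qCoeff (T_p g) n = qCoeff g (n * p) + [p ∣ n] p ^ (k - 1) * qCoeff (⟨p⟩ g) (n / p)`.
-/
import Mathlib
import Fermat.Agent.DS.Hecke1.HeckeT1
import Fermat.Agent.DS.W1.Forms
import Fermat.Prelude.Thm_ModularForm_periodic_heckeU_comp_ofComplex
import Fermat.Prelude.Thm_ModularForm_periodic_heckeT_comp_ofComplex
import Fermat.Prelude.Thm_ModularForm_mdifferentiable_heckeT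
import Fermat.Prelude.Thm_ModularForm_isBoundedAtImInfty_heckeU
import Fermat.Prelude.Thm_ModularForm_isBoundedAtImInfty_heckeT
import Fermat.Prelude.Thm_UpperHalfPlane_qCoeff_heckeU
import Fermat.Prelude.Thm_UpperHalfPlane_qCoeff_heckeT

set_option autoImplicit false
set_option linter.unusedSectionVars false

open Matrix.SpecialLinearGroup UpperHalfPlane CongruenceSubgroup ModularForm
open scoped MatrixGroups ModularForm OnePoint Manifold

namespace Fermat.Agent.DS.Hecke1.QExp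

open Fermat.Agent.DS.Hecke1.Cosets Fermat.Agent.DS.Hecke1.Diamond Fermat.Agent.DS.Hecke1.HeckeT1
open Fermat.Agent.DS.W1.Forms ModularFormClass

variable {M : ℕ} {k : ℤ} {p : ℕ}

theorem good_heckeU {f : ℍ → ℂ} (hf : Good f) (k : ℤ) (p : ℕ) : Good (heckeU k p f) where
  per := periodic_heckeU_comp_ofComplex hf.per k p
  hol := mdifferentiable_heckeU hf.hol k p
  bdd := isBoundedAtImInfty_heckeU hf.bdd k p

theorem good_heckeT {f : ℍ → ℂ} (hf : Good f) (k : ℤ) (p : ℕ) : Good (heckeT k p f) where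
  per := periodic_heckeT_comp_ofComplex hf.per k p
  hol := mdifferentiable_heckeT hf.hol k p
  bdd := isBoundedAtImInfty_heckeT hf.bdd k p

/-- Function level: for good `g, h`,
`qCoeff (U_p g + h ∣ diag(p,1)) n = qCoeff g (n p) + [p ∣ n] p^(k-1) qCoeff h (n / p)`. -/
theorem qCoeff_heckeU_add_slash {g h : ℍ → ℂ} (hg : Good g) (hh : Good h) (hp : p ≠ 0) (n : ℕ) :
    qCoeff (heckeU k p g + h ∣[k] heckeDiagMatrix p) n =
      qCoeff g (n * p) + if p ∣ n then (p : ℂ) ^ (k - 1) * qCoeff h (n / p) else 0 := by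
  have e : heckeU k p g + h ∣[k] heckeDiagMatrix p =
      heckeU k p g + (heckeT k p h - heckeU k p h) := by
    rw [heckeT_eq_heckeU_add]; abel
  have hA := (good_heckeU hg k p).analyticAt
  have hB := (good_heckeT hh k p).analyticAt
  have hC := (good_heckeU hh k p).analyticAt
  have hBC : AnalyticAt ℂ (cuspFunction 1 (heckeT k p h - heckeU k p h)) 0 := by
    rw [cuspFunction_sub hB.continuousAt hC.continuousAt]
    exact hB.sub hC
  have h1 := UpperHalfPlane.qCoeff_heckeU hg.per hg.hol hg.bdd k hp n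
  have h2 := UpperHalfPlane.qCoeff_heckeT hh.per hh.hol hh.bdd k hp n
  have h3 := UpperHalfPlane.qCoeff_heckeU hh.per hh.hol hh.bdd k hp n
  unfold qCoeff at h1 h2 h3 ⊢
  rw [e, qExpansion_add hA hBC, qExpansion_sub hB hC, map_add, map_sub, h1, h2, h3,
    coeffHeckeT_eq_coeffHeckeU_add, coeffHeckeU_apply]
  ring

section CuspForms

variable [NeZero M]

local notation "Γ1M" => ((Gamma1 M : Subgroup SL(2, ℤ)) : Subgroup (GL (Fin 2) ℝ))

/-- **The `q`-expansion of `T_p g`.** -/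
theorem qCoeff_heckeT1 (hp : p.Prime) (hpM : ¬ p ∣ M) (g : CuspForm Γ1M k) (n : ℕ) :
    qCoeff (heckeT1 hp hpM g) n =
      qCoeff g (n * p) +
        if p ∣ n then (p : ℂ) ^ (k - 1) * qCoeff (diamond (unitP hp hpM) g) (n / p) else 0 := by
  rw [coe_heckeT1]
  exact qCoeff_heckeU_add_slash (good_of_form g) (good_of_form _) hp.ne_zero n

theorem qCoeff_heckeT1_of_not_dvd (hp : p.Prime) (hpM : ¬ p ∣ M) (g : CuspForm Γ1M k) {n : ℕ}
    (hn : ¬ p ∣ n) : qCoeff (heckeT1 hp hpM g) n = qCoeff g (n * p) := by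
  rw [qCoeff_heckeT1, if_neg hn, add_zero]

theorem qCoeff_heckeT1_of_dvd (hp : p.Prime) (hpM : ¬ p ∣ M) (g : CuspForm Γ1M k) {n : ℕ}
    (hn : p ∣ n) : qCoeff (heckeT1 hp hpM g) n =
      qCoeff g (n * p) + (p : ℂ) ^ (k - 1) * qCoeff (diamond (unitP hp hpM) g) (n / p) := by
  rw [qCoeff_heckeT1, if_pos hn]

/-- `a_1(T_p g) = a_p(g)`. -/
theorem qCoeff_heckeT1_one (hp : p.Prime) (hpM : ¬ p ∣ M) (g : CuspForm Γ1M k) :
    qCoeff (heckeT1 hp hpM g) 1 = qCoeff g p := by
  rw [qCoeff_heckeT1_of_not_dvd hp hpM g (Nat.Prime.not_dvd_one hp), one_mul]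

/-- Cusp forms on `Γ₁(M)` with the same `q`-coefficients are equal. -/
theorem ext_qCoeff {f g : CuspForm Γ1M k} (h : ∀ n, qCoeff f n = qCoeff g n) : f = g := by
  apply DFunLike.coe_injective
  refine (good_of_form f).eq_of_qExpansion_eq (good_of_form g) ?_
  ext n
  exact h n

end CuspForms

end Fermat.Agent.DS.Hecke1.QExp
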