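/-
Programme DS (S48), brick HECKE1, part (e) (helper2): the operators `T_p` (`p ∤ M` prime) on
`S_k(Γ₁(M))` commute with each other (via the `q`-expansion formula and the `q`-expansion principle).
-/
import Mathlib
import Fermat.Agent.DS.Hecke1.QExp

set_option autoImplicit false
set_option linter.unusedSectionVars false

open Matrix.SpecialLinearGroup UpperHalfPlane CongruenceSubgroup ModularForm
open scoped MatrixGroups ModularForm OnePoint Manifold

namespace Fermat.Agent.DS.Hecke1.Comm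

open Fermat.Agent.DS.Hecke1.Cosets Fermat.Agent.DS.Hecke1.Diamond Fermat.Agent.DS.Hecke1.HeckeT1
open Fermat.Agent.DS.Hecke1.QExp ModularFormClass

/-- The coefficient identity behind `T_p T_q = T_q T_p` for distinct primes. -/
theorem coeff_comm {p q : ℕ} (hp : p.Prime) (hq : q.Prime) (hpq : p ≠ q) (k : ℤ)
    (A B C D : ℕ → ℂ) (n : ℕ) :
    (A (n * p * q) + if q ∣ n * p then (q : ℂ) ^ (k - 1) * B (n * p / q) else 0) +
      (if p ∣ n then (p : ℂ) ^ (k - 1) *
        (C (n / p * q) + if q ∣ n / p then (q : ℂ) ^ (k - 1) * D (n / p / q) else 0) else 0) =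
    (A (n * q * p) + if p ∣ n * q then (p : ℂ) ^ (k - 1) * C (n * q / p) else 0) +
      (if q ∣ n then (q : ℂ) ^ (k - 1) *
        (B (n / q * p) + if p ∣ n / q then (p : ℂ) ^ (k - 1) * D (n / q / p) else 0) else 0) := by
  have hcop : Nat.Coprime p q := (Nat.coprime_primes hp hq).mpr hpq
  have h1 : q ∣ n * p ↔ q ∣ n := hcop.symm.dvd_mul_right
  have h2 : p ∣ n * q ↔ p ∣ n := hcop.dvd_mul_right
  have e1 : n * p * q = n * q * p := by ring
  simp only [h1, h2, e1]
  by_cases hpn : p ∣ n <;> by_cases hqn : q ∣ n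
  · obtain ⟨m, rfl⟩ := hcop.mul_dvd_of_dvd_of_dvd hpn hqn
    have hp0 := hp.pos
    have hq0 := hq.pos
    have e2 : p * q * m * p / q = p * m * p := by
      rw [show p * q * m * p = q * (p * m * p) by ring, Nat.mul_div_cancel_left _ hq0]
    have e3 : p * q * m / p = q * m := by
      rw [show p * q * m = p * (q * m) by ring, Nat.mul_div_cancel_left _ hp0]
    have e4 : p * q * m * q / p = q * m * q := by
      rw [show p * q * m * q = p * (q * m * q) by ring, Nat.mul_div_cancel_left _ hp0]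
    have e5 : p * q * m / q = p * m := by
      rw [show p * q * m = q * (p * m) by ring, Nat.mul_div_cancel_left _ hq0]
    have e6 : q * m / q = m := Nat.mul_div_cancel_left _ hq0
    have e7 : p * m / p = m := Nat.mul_div_cancel_left _ hp0
    simp only [if_pos hpn, if_pos hqn, e2, e3, e4, e5, e6, e7, dvd_mul_right, if_true]
    ring
  · obtain ⟨m, rfl⟩ := hpn
    have hp0 := hp.pos
    have hqm : ¬ q ∣ m := fun h => hqn (h.mul_left p)
    have e3 : p * m / p = m := Nat.mul_div_cancel_left _ hp0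
    have e4 : p * m * q / p = m * q := by
      rw [show p * m * q = p * (m * q) by ring, Nat.mul_div_cancel_left _ hp0]
    simp only [if_pos (dvd_mul_right p m), if_neg hqn, if_neg hqm, e3, e4, add_zero]
  · obtain ⟨m, rfl⟩ := hqn
    have hq0 := hq.pos
    have hpm : ¬ p ∣ m := fun h => hpn (h.mul_left q)
    have e3 : q * m / q = m := Nat.mul_div_cancel_left _ hq0
    have e4 : q * m * p / q = m * p := by
      rw [show q * m * p = q * (m * p) by ring, Nat.mul_div_cancel_left _ hq0]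
    simp only [if_pos (dvd_mul_right q m), if_neg hpn, if_neg hpm, e3, e4, add_zero]
  · simp only [if_neg hpn, if_neg hqn]

section CuspForms

variable {M : ℕ} {k : ℤ} [NeZero M]

local notation "Γ1M" => ((Gamma1 M : Subgroup SL(2, ℤ)) : Subgroup (GL (Fin 2) ℝ))

/-- **`T_p T_q = T_q T_p`** on `S_k(Γ₁(M))`. -/
theorem heckeT1_comm {p q : ℕ} (hp : p.Prime) (hpM : ¬ p ∣ M) (hq : q.Prime) (hqM : ¬ q ∣ M) :
    (heckeT1 hp hpM : CuspForm Γ1M k →ₗ[ℂ] _) ∘ₗ heckeT1 hq hqM =
      heckeT1 hq hqM ∘ₗ heckeT1 hp hpM := by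
  rcases eq_or_ne p q with rfl | hpq
  · rfl
  ext1 g
  apply ext_qCoeff
  intro n
  show qCoeff (heckeT1 hp hpM (heckeT1 hq hqM g)) n = qCoeff (heckeT1 hq hqM (heckeT1 hp hpM g)) n
  rw [qCoeff_heckeT1, qCoeff_heckeT1, qCoeff_heckeT1 hq hqM (heckeT1 hp hpM g), qCoeff_heckeT1,
    ← heckeT1_diamond, ← heckeT1_diamond, qCoeff_heckeT1, qCoeff_heckeT1]
  have hd : diamond (unitP hq hqM) (diamond (unitP hp hpM) g) =
      diamond (unitP hp hpM) (diamond (unitP hq hqM) g) :=
    LinearMap.congr_fun (diamond_comm (unitP hq hqM) (unitP hp hpM)) g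
  rw [← hd]
  exact coeff_comm hp hq hpq k _ _ _ _ n

theorem heckeT1_commute {p q : ℕ} (hp : p.Prime) (hpM : ¬ p ∣ M) (hq : q.Prime) (hqM : ¬ q ∣ M) :
    Commute (heckeT1 hp hpM : Module.End ℂ (CuspForm Γ1M k)) (heckeT1 hq hqM) :=
  heckeT1_comm hp hpM hq hqM

theorem heckeT1_diamond_commute {p : ℕ} (hp : p.Prime) (hpM : ¬ p ∣ M) (d : (ZMod M)ˣ) :
    Commute (heckeT1 hp hpM : Module.End ℂ (CuspForm Γ1M k)) (diamond d) :=
  heckeT1_comp_diamond hp hpM d

theorem diamond_commute (d e : (ZMod M)ˣ) :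
    Commute (diamond d : Module.End ℂ (CuspForm Γ1M k)) (diamond e) :=
  diamond_comm d e

end CuspForms

end Fermat.Agent.DS.Hecke1.Comm
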