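/-
Programme DS (S48), brick HECKE1, part (f) (helper2): the Hecke algebra of level `Γ₁(M)`.

`heckeAlgebra1 M k := Algebra.adjoin ℤ ({T_p | p ∤ M prime} ∪ {⟨d⟩ | d ∈ (ℤ/M)ˣ})` inside
`Module.End ℂ (CuspForm Γ₁(M) k)`; it is commutative.  `T2 M := heckeAlgebra1 M 2`.
(Mirror of Prelude `Def_CuspForm_HeckeAlgebra`.)
-/
import Mathlib
import Fermat.Agent.DS.Hecke1.Comm

set_option autoImplicit false
set_option linter.unusedSectionVars false

open Matrix.SpecialLinearGroup UpperHalfPlane CongruenceSubgroup ModularForm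
open scoped MatrixGroups ModularForm OnePoint Manifold

namespace Fermat.Agent.DS.Hecke1.Algebra

open Fermat.Agent.DS.Hecke1.Cosets Fermat.Agent.DS.Hecke1.Diamond Fermat.Agent.DS.Hecke1.HeckeT1
open Fermat.Agent.DS.Hecke1.QExp Fermat.Agent.DS.Hecke1.Comm

variable (M : ℕ) [NeZero M] (k : ℤ)

local notation "Γ1M" => ((Gamma1 M : Subgroup SL(2, ℤ)) : Subgroup (GL (Fin 2) ℝ))

/-- The generators: `T_p` for primes `p ∤ M` and all diamond operators. -/
def heckeGenerators1 : Set (Module.End ℂ (CuspForm Γ1M k)) :=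
  {T | ∃ (p : ℕ) (hp : p.Prime) (hpM : ¬ p ∣ M), T = heckeT1 hp hpM} ∪
    {D | ∃ d : (ZMod M)ˣ, D = diamond d}

/-- The Hecke algebra of level `Γ₁(M)` and weight `k`. -/
def heckeAlgebra1 : Subalgebra ℤ (Module.End ℂ (CuspForm Γ1M k)) :=
  Algebra.adjoin ℤ (heckeGenerators1 M k)

variable {M k}

theorem heckeT1_mem_heckeGenerators1 {p : ℕ} (hp : p.Prime) (hpM : ¬ p ∣ M) :
    (heckeT1 hp hpM : Module.End ℂ (CuspForm Γ1M k)) ∈ heckeGenerators1 M k :=
  Or.inl ⟨p, hp, hpM, rfl⟩

theorem diamond_mem_heckeGenerators1 (d : (ZMod M)ˣ) :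
    (diamond d : Module.End ℂ (CuspForm Γ1M k)) ∈ heckeGenerators1 M k :=
  Or.inr ⟨d, rfl⟩

theorem heckeT1_mem_heckeAlgebra1 {p : ℕ} (hp : p.Prime) (hpM : ¬ p ∣ M) :
    (heckeT1 hp hpM : Module.End ℂ (CuspForm Γ1M k)) ∈ heckeAlgebra1 M k :=
  Algebra.subset_adjoin (heckeT1_mem_heckeGenerators1 hp hpM)

theorem diamond_mem_heckeAlgebra1 (d : (ZMod M)ˣ) :
    (diamond d : Module.End ℂ (CuspForm Γ1M k)) ∈ heckeAlgebra1 M k :=
  Algebra.subset_adjoin (diamond_mem_heckeGenerators1 d)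

theorem commute_of_mem_heckeGenerators1 {T T' : Module.End ℂ (CuspForm Γ1M k)}
    (hT : T ∈ heckeGenerators1 M k) (hT' : T' ∈ heckeGenerators1 M k) : Commute T T' := by
  rcases hT with ⟨p, hp, hpM, rfl⟩ | ⟨d, rfl⟩ <;>
    rcases hT' with ⟨q, hq, hqM, rfl⟩ | ⟨e, rfl⟩
  · exact heckeT1_commute hp hpM hq hqM
  · exact heckeT1_diamond_commute hp hpM e
  · exact (heckeT1_diamond_commute hq hqM d).symm
  · exact diamond_commute d e

variable (M k)

instance heckeAlgebra1.instIsMulCommutative : IsMulCommutative (heckeAlgebra1 M k) :=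
  Algebra.isMulCommutative_adjoin ℤ fun _ hT _ hT' => commute_of_mem_heckeGenerators1 hT hT'

open scoped IsMulCommutative in
instance heckeAlgebra1.instCommRing : CommRing (heckeAlgebra1 M k) := inferInstance

instance heckeAlgebra1.instIsAddTorsionFree : IsAddTorsionFree (heckeAlgebra1 M k) where
  nsmul_right_injective n hn a b hab := by
    apply Subtype.ext
    have h : (n : ℂ) • (a : Module.End ℂ (CuspForm Γ1M k)) =
        (n : ℂ) • (b : Module.End ℂ (CuspForm Γ1M k)) := by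
      simp only [Nat.cast_smul_eq_nsmul]
      exact congrArg Subtype.val hab
    exact smul_right_injective _ (Nat.cast_ne_zero.mpr hn) h

/-- The weight `2` Hecke algebra of level `Γ₁(M)`. -/
abbrev T2 : Subalgebra ℤ (Module.End ℂ (CuspForm Γ1M 2)) := heckeAlgebra1 M 2

variable {M k}

/-- `T_p` as an element of the Hecke algebra. -/
noncomputable def heckeAlgebra1.T {p : ℕ} (hp : p.Prime) (hpM : ¬ p ∣ M) : heckeAlgebra1 M k :=
  ⟨heckeT1 hp hpM, heckeT1_mem_heckeAlgebra1 hp hpM⟩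

/-- `⟨d⟩` as an element of the Hecke algebra. -/
noncomputable def heckeAlgebra1.dia (d : (ZMod M)ˣ) : heckeAlgebra1 M k :=
  ⟨diamond d, diamond_mem_heckeAlgebra1 d⟩

@[simp] theorem heckeAlgebra1.coe_T {p : ℕ} (hp : p.Prime) (hpM : ¬ p ∣ M) :
    ((heckeAlgebra1.T hp hpM : heckeAlgebra1 M k) : Module.End ℂ (CuspForm Γ1M k)) =
      heckeT1 hp hpM := rfl

@[simp] theorem heckeAlgebra1.coe_dia (d : (ZMod M)ˣ) :
    ((heckeAlgebra1.dia d : heckeAlgebra1 M k) : Module.End ℂ (CuspForm Γ1M k)) = diamond d := rfl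

/-- A simultaneous eigenvector of the generators is an eigenvector of the whole algebra:
the eigenvalue map extends to a ring homomorphism. -/
theorem exists_eigenchar {g : CuspForm Γ1M k} (hg : g ≠ 0)
    (hT : ∀ {p : ℕ} (hp : p.Prime) (hpM : ¬ p ∣ M), ∃ a : ℂ, heckeT1 hp hpM g = a • g)
    (hD : ∀ d : (ZMod M)ˣ, ∃ e : ℂ, diamond d g = e • g) :
    ∃ θ : heckeAlgebra1 M k →+* ℂ, ∀ T : heckeAlgebra1 M k,
      (T : Module.End ℂ (CuspForm Γ1M k)) g = θ T • g := by
  classical
  -- every element of the algebra has `g` as an eigenvector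
  have key : ∀ T ∈ heckeAlgebra1 M k, ∃ a : ℂ, T g = a • g := by
    intro T hTm
    refine Algebra.adjoin_induction (R := ℤ) (s := heckeGenerators1 M k)
      (p := fun T _ => ∃ a : ℂ, T g = a • g) ?_ ?_ ?_ ?_ hTm
    · rintro T (⟨p, hp, hpM, rfl⟩ | ⟨d, rfl⟩)
      · exact hT hp hpM
      · exact hD d
    · intro r
      refine ⟨(r : ℂ), ?_⟩
      rw [Algebra.algebraMap_eq_smul_one, LinearMap.smul_apply, Module.End.one_apply,
        Int.cast_smul_eq_zsmul]
    · rintro S T _ _ ⟨a, ha⟩ ⟨b, hb⟩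
      exact ⟨a + b, by rw [LinearMap.add_apply, ha, hb, add_smul]⟩
    · rintro S T _ _ ⟨a, ha⟩ ⟨b, hb⟩
      exact ⟨b * a, by rw [Module.End.mul_apply, hb, map_smul, ha, smul_smul]⟩
  choose θ hθ using key
  have huniq : ∀ {a b : ℂ}, a • g = b • g → a = b := fun {a b} h => by
    by_contra hab
    have : (a - b) • g = 0 := by rw [sub_smul, h, sub_self]
    rcases smul_eq_zero.mp this with h0 | h0
    · exact hab (sub_eq_zero.mp h0)
    · exact hg h0
  refine ⟨{ toFun := fun T => θ T T.2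
            map_one' := huniq (by rw [← hθ]; simp)
            map_mul' := fun S T => huniq (by
              rw [← hθ]
              show ((S : Module.End ℂ (CuspForm Γ1M k)) * T) g = _
              rw [Module.End.mul_apply, hθ T T.2, map_smul, hθ S S.2, smul_smul, mul_comm])
            map_zero' := huniq (by rw [← hθ]; simp)
            map_add' := fun S T => huniq (by
              rw [← hθ]
              show ((S : Module.End ℂ (CuspForm Γ1M k)) + T) g = _
              rw [LinearMap.add_apply, hθ S S.2, hθ T T.2, add_smul]) }, fun T => hθ T T.2⟩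

end Fermat.Agent.DS.Hecke1.Algebra
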