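/-
Programme DS (S48), brick HECKE1, extras (helper2), requested by helper71 (H2, H4, H5):

* (H2) `qCoeff_heckeT1_of_diamond_eq` : on an eigenvector of `⟨p⟩` with eigenvalue `e`,
  `a_n(T_p g) = a_{np}(g) + [p ∣ n] e p^(k-1) a_{n/p}(g)`;
* (H4) `slashMod`, `diamondMod` : the diamond operators on `ModularForm Γ₁(M) k`;
  `diamond_mulModularForm : ⟨d⟩ (f * E) = ⟨d⟩ f * ⟨d⟩ E`, `diamond_mcast`, and the eigen form
  `diamond_mulModularForm_of_eigen`;
* (H5) restriction to a higher level `N ∣ M` commutes with `⟨d⟩` and `T_p` (`p ∤ M`):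
  `diamond_restrictCusp`, `heckeT1_restrictCusp`.
-/
import Mathlib
import Fermat.Agent.DS.Hecke1.QExp

set_option autoImplicit false
set_option linter.unusedSectionVars false

open Matrix.SpecialLinearGroup UpperHalfPlane CongruenceSubgroup ModularForm
open scoped MatrixGroups ModularForm OnePoint Manifold

namespace Fermat.Agent.DS.Hecke1.Extras

open Fermat.Agent.DS.Hecke1.Cosets Fermat.Agent.DS.Hecke1.Diamond Fermat.Agent.DS.Hecke1.HeckeT1
open Fermat.Agent.DS.Hecke1.QExp Fermat.Agent.DS.W1.Forms ModularFormClass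

variable {M : ℕ} [NeZero M] {k : ℤ}

local notation "Γ1M" => ((Gamma1 M : Subgroup SL(2, ℤ)) : Subgroup (GL (Fin 2) ℝ))

/-! ### (H2) the `q`-expansion formula on eigenvectors of the diamond operators -/

theorem qCoeff_coe_smul (c : ℂ) (g : CuspForm Γ1M k) (n : ℕ) :
    qCoeff ((c • g : CuspForm Γ1M k) : ℍ → ℂ) n = c * qCoeff g n := by
  unfold qCoeff
  rw [FunLike.coe_smul, qExpansion_smul (good_of_form g).analyticAt, PowerSeries.coeff_smul,
    smul_eq_mul]

theorem qCoeff_heckeT1_of_diamond_eq {p : ℕ} (hp : p.Prime) (hpM : ¬ p ∣ M) (g : CuspForm Γ1M k)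
    {e : ℂ} (he : diamond (unitP hp hpM) g = e • g) (n : ℕ) :
    qCoeff (heckeT1 hp hpM g) n =
      qCoeff g (n * p) + if p ∣ n then e * (p : ℂ) ^ (k - 1) * qCoeff g (n / p) else 0 := by
  rw [qCoeff_heckeT1, he, qCoeff_coe_smul]
  split_ifs <;> ring

/-- Nebentypus form: if `⟨d⟩ g = ε(d) g` for all `d`, then
`a_n(T_p g) = a_{np}(g) + [p ∣ n] ε(p) p^(k-1) a_{n/p}(g)`. -/
theorem qCoeff_heckeT1_of_nebentypus (ε : DirichletCharacter ℂ M) (g : CuspForm Γ1M k)
    (hε : ∀ d : (ZMod M)ˣ, diamond d g = ε (d : ZMod M) • g)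
    {p : ℕ} (hp : p.Prime) (hpM : ¬ p ∣ M) (n : ℕ) :
    qCoeff (heckeT1 hp hpM g) n =
      qCoeff g (n * p) +
        if p ∣ n then ε (p : ZMod M) * (p : ℂ) ^ (k - 1) * qCoeff g (n / p) else 0 := by
  have := hε (unitP hp hpM)
  rw [coe_unitP] at this
  exact qCoeff_heckeT1_of_diamond_eq hp hpM g this n

/-! ### (H4) diamond operators on modular forms and products -/

/-- Slash by an element of `Γ₀(M)`, as a linear endomorphism of `M_k(Γ₁(M))`. -/
noncomputable def slashMod (γ : SL(2, ℤ)) (hγ : γ ∈ Gamma0 M) :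
    ModularForm Γ1M k →ₗ[ℂ] ModularForm Γ1M k where
  toFun f :=
    { toFun := (f : ℍ → ℂ) ∣[k] γ
      slash_action_eq' :=
        (Inv1.slash (fun δ hδ => by
          rw [SL_slash]
          exact f.slash_action_eq' _ (Subgroup.mem_map_of_mem _ hδ)) hγ).slash_action_eq
      holo' := by
        show MDiff ((f : ℍ → ℂ) ∣[k] γ)
        rw [SL_slash]; exact f.holo'.slash k _
      bdd_at_cusps' := by
        intro c hc
        rw [Subgroup.IsArithmetic.isCusp_iff_isCusp_SL2Z] at hc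
        rw [OnePoint.isBoundedAt_iff_forall_SL2Z hc]
        intro γ' _
        show IsBoundedAtImInfty (((f : ℍ → ℂ) ∣[k] γ) ∣[k] γ')
        rw [← SlashAction.slash_mul]
        exact ModularFormClass.bdd_at_infty_slash f (γ * γ') }
  map_add' f g := by
    ext τ
    show (((f + g : ModularForm Γ1M k) : ℍ → ℂ) ∣[k] γ) τ = _
    rw [FunLike.coe_add, SlashAction.add_slash]
    rfl
  map_smul' c f := by
    ext τ
    show (((c • f : ModularForm Γ1M k) : ℍ → ℂ) ∣[k] γ) τ = _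
    rw [FunLike.coe_smul, SL_smul_slash]
    rfl

@[simp] theorem coe_slashMod (γ : SL(2, ℤ)) (hγ : γ ∈ Gamma0 M) (f : ModularForm Γ1M k) :
    (slashMod γ hγ f : ℍ → ℂ) = (f : ℍ → ℂ) ∣[k] γ := rfl

theorem inv1_coe_mod (f : ModularForm Γ1M k) : Inv1 M k (f : ℍ → ℂ) := fun δ hδ => by
  rw [SL_slash]
  exact f.slash_action_eq' _ (Subgroup.mem_map_of_mem _ hδ)

/-- The diamond operator `⟨d⟩` on `M_k(Γ₁(M))`. -/
noncomputable def diamondMod (d : (ZMod M)ˣ) : ModularForm Γ1M k →ₗ[ℂ] ModularForm Γ1M k :=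
  slashMod (lift d) (lift_mem d)

theorem coe_diamondMod (d : (ZMod M)ˣ) {γ : SL(2, ℤ)} (hγ : γ ∈ Gamma0 M)
    (hlr : lr M γ = (d : ZMod M)) (f : ModularForm Γ1M k) :
    (diamondMod d f : ℍ → ℂ) = (f : ℍ → ℂ) ∣[k] γ :=
  (inv1_coe_mod f).slash_eq_of_lr_eq (lift_mem d) hγ ((lr_lift d).trans hlr.symm)

theorem diamondMod_one : (diamondMod 1 : ModularForm Γ1M k →ₗ[ℂ] _) = LinearMap.id := by
  ext f τ
  rw [coe_diamondMod 1 (one_mem _) (by simp [lr_one]) f, SlashAction.slash_one]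
  rfl

theorem diamondMod_mul (d e : (ZMod M)ˣ) :
    (diamondMod (d * e) : ModularForm Γ1M k →ₗ[ℂ] _) = diamondMod e ∘ₗ diamondMod d := by
  ext f τ
  have h1 : lr M (lift d * lift e) = ((d * e : (ZMod M)ˣ) : ZMod M) := by
    rw [lr_mul (lift_mem d), lr_lift, lr_lift, Units.val_mul]
  rw [coe_diamondMod (d * e) (mul_mem (lift_mem d) (lift_mem e)) h1 f, SlashAction.slash_mul]
  rfl

/-- `⟨d⟩ (f E) = ⟨d⟩ f · ⟨d⟩ E`. -/
theorem diamond_mulModularForm {k₁ k₂ : ℤ} (d : (ZMod M)ˣ) (f : CuspForm Γ1M k₁)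
    (E : ModularForm Γ1M k₂) :
    diamond d (f.mulModularForm E) = (diamond d f).mulModularForm (diamondMod d E) := by
  apply DFunLike.coe_injective
  show ((f.mulModularForm E : CuspForm Γ1M (k₁ + k₂)) : ℍ → ℂ) ∣[k₁ + k₂] lift d =
    ((diamond d f).mulModularForm (diamondMod d E) : CuspForm Γ1M (k₁ + k₂))
  rw [CuspForm.coe_mulModularForm, CuspForm.coe_mulModularForm, mul_slash_SL2]
  rfl

/-- The diamond operators commute with the weight cast. -/
theorem diamond_mcast {k₁ k₂ : ℤ} (h : k₁ = k₂) (d : (ZMod M)ˣ) (f : CuspForm Γ1M k₁) :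
    diamond d (CuspForm.mcast h f : CuspForm Γ1M k₂) = CuspForm.mcast h (diamond d f) := by
  subst h
  rfl

/-- Eigen form of `diamond_mulModularForm`: nebentypus characters multiply. -/
theorem diamond_mulModularForm_of_eigen {k₁ k₂ : ℤ} (d : (ZMod M)ˣ) (f : CuspForm Γ1M k₁)
    (E : ModularForm Γ1M k₂) {a b : ℂ} (hf : diamond d f = a • f) (hE : diamondMod d E = b • E) :
    diamond d (f.mulModularForm E) = (a * b) • f.mulModularForm E := by
  rw [diamond_mulModularForm, hf, hE]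
  apply DFunLike.coe_injective
  rw [CuspForm.coe_mulModularForm, FunLike.coe_smul, FunLike.coe_smul, FunLike.coe_smul,
    CuspForm.coe_mulModularForm]
  funext τ
  simp only [Pi.mul_apply, Pi.smul_apply, smul_eq_mul]
  ring

/-! ### (H5) restriction to a higher level -/

section Restrict

variable {N : ℕ} [NeZero N]

local notation "Γ1N" => ((Gamma1 N : Subgroup SL(2, ℤ)) : Subgroup (GL (Fin 2) ℝ))

theorem Gamma0_le_of_dvd (h : N ∣ M) : Gamma0 M ≤ Gamma0 N := by
  intro γ hγ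
  rw [Gamma0_mem] at hγ ⊢
  have := congrArg (ZMod.castHom h (ZMod N)) hγ
  simpa using this

theorem lr_of_dvd (h : N ∣ M) (γ : SL(2, ℤ)) :
    lr N γ = ZMod.castHom h (ZMod N) (lr M γ) := by
  simp [lr]

/-- Restriction to level `M` (a multiple of `N`). -/
noncomputable def restrictLevel (h : N ∣ M) (f : CuspForm Γ1N k) : CuspForm Γ1M k :=
  restrictCusp (map_Gamma1_le_of_dvd h) f

@[simp] theorem coe_restrictLevel (h : N ∣ M) (f : CuspForm Γ1N k) :
    (restrictLevel h f : ℍ → ℂ) = f := rfl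

theorem diamond_restrictLevel (h : N ∣ M) (d : (ZMod M)ˣ) (f : CuspForm Γ1N k) :
    diamond d (restrictLevel h f) = restrictLevel h (diamond (ZMod.unitsMap h d) f) := by
  apply DFunLike.coe_injective
  rw [coe_restrictLevel, coe_diamond d (lift_mem d) (lr_lift d),
    coe_diamond (ZMod.unitsMap h d) (Gamma0_le_of_dvd h (lift_mem d)) ?_ f, coe_restrictLevel]
  rw [lr_of_dvd h, lr_lift]
  rfl

theorem heckeT1_restrictLevel (h : N ∣ M) {p : ℕ} (hp : p.Prime) (hpM : ¬ p ∣ M)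
    (f : CuspForm Γ1N k) :
    heckeT1 hp hpM (restrictLevel h f) =
      restrictLevel h (heckeT1 hp (fun hpN => hpM (hpN.trans h)) f) := by
  apply DFunLike.coe_injective
  have hσ := lift_mem (unitP hp hpM)
  have hσp : lr N (lift (unitP hp hpM)) = (p : ZMod N) := by
    rw [lr_of_dvd h, lr_lift, coe_unitP, map_natCast]
  rw [coe_restrictLevel, coe_heckeT1_eq_fun,
    coe_heckeT1_of_lr hp _ (Gamma0_le_of_dvd h hσ) hσp f, coe_restrictLevel]

end Restrict

end Fermat.Agent.DS.Hecke1.Extras
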